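import Fermat.Agent.EuclideanSteps.Count
import Fermat.Agent.MinkowskiHlawka.Count
import Mathlib.NumberTheory.Harmonic.Bounds
import Mathlib.NumberTheory.LSeries.HurwitzZetaValues
import Mathlib.Algebra.Order.Floor.Semifield
import Mathlib.Analysis.PSeries

/-!
# The average number of divisions

The quadruples with `x u + y v ≤ X` number `(log 2 / 2) X ^ 2 log X + O (X ^ 2)`: one of `x, u` is
at most `√X`, and for fixed `(x, y)` a triangle of area `X ^ 2 / (2 x (x + y))` is counted. Möbius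
inversion makes `(x, y)` coprime.
-/

set_option autoImplicit false

noncomputable section

open Finset Filter Topology Real
open scoped ArithmeticFunction.Moebius

namespace FA.EuclideanSteps

theorem sum_Icc_id_real (K : ℕ) : ∑ v ∈ Icc 1 K, (v : ℝ) = K * (K + 1) / 2 := by
  induction K with
  | zero => simp
  | succ K ih =>
    rw [sum_Icc_succ_top (Nat.le_add_left 1 K), ih]
    push_cast
    ring

theorem sum_inv_sq_le (n : ℕ) : ∑ d ∈ Icc 1 n, ((d : ℝ) ^ 2)⁻¹ ≤ 2 := by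
  refine le_trans (le_of_eq ?_) ((sum_Ioo_inv_sq_le (α := ℝ) 0 (n + 1)).trans (by norm_num))
  refine sum_congr ?_ fun d _ => rfl
  ext d
  simp only [mem_Icc, mem_Ioo]
  omega

/-- The quadruples with `x ≤ R`. -/
theorem card_small_x (N R : ℕ) :
    ((quads N).filter fun z => z.1.1 ≤ R).card =
      ∑ x ∈ Icc 1 R, ∑ y ∈ Ico 1 x, ∑ v ∈ Icc 1 (N / (x + y)), ((N - y * v) / x - v) := by
  have e : ∑ x ∈ Icc 1 R, ∑ y ∈ Ico 1 x, ∑ v ∈ Icc 1 (N / (x + y)), ((N - y * v) / x - v) =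
      ((Icc 1 R).sigma fun x => (Ico 1 x).sigma fun y => (Icc 1 (N / (x + y))).sigma fun v =>
        Ioc v ((N - y * v) / x)).card := by
    simp [card_sigma]
  rw [e]
  refine card_nbij' (fun z => ⟨z.1.1, z.1.2, z.2.2, z.2.1⟩)
    (fun w => ((w.1, w.2.1), (w.2.2.2, w.2.2.1))) ?_ ?_ ?_ ?_
  · rintro ⟨⟨x, y⟩, u, v⟩ h
    simp only [coe_filter, Set.mem_ofPred_eq, mem_quads, mem_coe, mem_sigma, mem_Icc, mem_Ico,
      mem_Ioc] at h ⊢
    obtain ⟨⟨hy, hyx, hv, hvu, hle⟩, hR⟩ := h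
    have : x * v ≤ x * u := Nat.mul_le_mul_left x hvu.le
    refine ⟨⟨by omega, hR⟩, ⟨hy, hyx⟩, ⟨hv, ?_⟩, hvu, ?_⟩
    · rw [Nat.le_div_iff_mul_le (by omega), Nat.mul_comm, Nat.add_mul]
      omega
    · rw [Nat.le_div_iff_mul_le (by omega), Nat.mul_comm u x]
      omega
  · rintro ⟨x, y, v, u⟩ h
    simp only [coe_filter, Set.mem_ofPred_eq, mem_quads, mem_coe, mem_sigma, mem_Icc, mem_Ico,
      mem_Ioc] at h ⊢
    obtain ⟨⟨hx, hR⟩, ⟨hy, hyx⟩, ⟨hv, hvK⟩, hvu, hu⟩ := h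
    rw [Nat.le_div_iff_mul_le (by omega), Nat.mul_comm, Nat.add_mul] at hvK
    rw [Nat.le_div_iff_mul_le (by omega), Nat.mul_comm u x] at hu
    exact ⟨⟨hy, hyx, hv, hvu, by omega⟩, hR⟩
  · intro z _
    rfl
  · intro w _
    rfl

/-- The triangle. -/
theorem abs_triangle_sub_le {X : ℝ} {x y : ℕ} (hy : 0 < y) (hyx : y < x) (hxX : (x : ℝ) ≤ X) :
    |((∑ v ∈ Icc 1 (⌊X⌋₊ / (x + y)), ((⌊X⌋₊ - y * v) / x - v) : ℕ) : ℝ) -
      X ^ 2 / (2 * x * ((x : ℝ) + y))| ≤ 3 * X / x := by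
  have hX : 0 ≤ X := (Nat.cast_nonneg x).trans hxX
  set N := ⌊X⌋₊ with hN
  set K := N / (x + y) with hK
  have hN1 : (N : ℝ) ≤ X := Nat.floor_le hX
  have hN2 : X < N + 1 := Nat.lt_floor_add_one X
  have hxR : (0 : ℝ) < x := Nat.cast_pos.2 (hy.trans hyx)
  have hyR : (0 : ℝ) < y := Nat.cast_pos.2 hy
  have hyxR : (y : ℝ) ≤ x := Nat.cast_le.2 hyx.le
  set L := X / ((x : ℝ) + y) with hL
  have hKL : (K : ℝ) ≤ L ∧ L ≤ K + 1 := by
    have h1 : (((x + y) * K : ℕ) : ℝ) ≤ N := Nat.cast_le.2 (Nat.mul_div_le N (x + y))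
    have h2 : ((N + 1 : ℕ) : ℝ) ≤ (((x + y) * (K + 1) : ℕ) : ℝ) :=
      Nat.cast_le.2 (Nat.lt_mul_div_succ N (by omega))
    push_cast at h1 h2
    rw [hL, le_div_iff₀ (by linarith), div_le_iff₀ (by linarith)]
    constructor <;> linarith
  have hterm : ∀ v ∈ Icc 1 K,
      (X - y * v) / x - v - 1 ≤ (((N - y * v) / x - v : ℕ) : ℝ) ∧
        (((N - y * v) / x - v : ℕ) : ℝ) ≤ (X - y * v) / x - v := fun v hv => by
    obtain ⟨-, hvK⟩ := mem_Icc.1 hv
    rw [hK, Nat.le_div_iff_mul_le (by omega), Nat.mul_comm, Nat.add_mul] at hvK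
    have hle : v ≤ (N - y * v) / x := by
      rw [Nat.le_div_iff_mul_le (by omega), Nat.mul_comm v x]
      omega
    rw [Nat.cast_sub hle]
    set U := (N - y * v) / x
    have h1 : x * U + y * v ≤ N := by
      have := Nat.mul_div_le (N - y * v) x
      simp only [U]
      omega
    have h2 : N + 1 ≤ x * (U + 1) + y * v := by
      have := Nat.lt_mul_div_succ (N - y * v) (show 0 < x by omega)
      simp only [U]
      omega
    have h1' := (Nat.cast_le (α := ℝ)).2 h1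
    have h2' := (Nat.cast_le (α := ℝ)).2 h2
    push_cast at h1' h2'
    constructor
    · have : (X - y * v) / x ≤ (U : ℝ) + 1 := by rw [div_le_iff₀ hxR]; linarith
      linarith
    · have : (U : ℝ) ≤ (X - y * v) / x := by rw [le_div_iff₀ hxR]; linarith
      linarith
  have hmain : ∑ v ∈ Icc 1 K, ((X - y * v) / x - v) =
      X ^ 2 / (2 * x * ((x : ℝ) + y)) - ((x : ℝ) + y) / x * ((L - K) ^ 2 / 2 + K / 2) := by
    have hv := sum_Icc_id_real K
    simp only [sub_div, mul_div_assoc, sum_sub_distrib, sum_const, Nat.card_Icc,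
      Nat.add_sub_cancel, nsmul_eq_mul]
    rw [← mul_sum, ← sum_div, hv, hL]
    field_simp
    ring
  have hlo := sum_le_sum fun v hv => (hterm v hv).1
  have hhi := sum_le_sum fun v hv => (hterm v hv).2
  rw [sum_sub_distrib, hmain, sum_const, Nat.card_Icc, Nat.add_sub_cancel, nsmul_eq_mul,
    mul_one] at hlo
  rw [hmain] at hhi
  rw [Nat.cast_sum]
  have hfac : ((x : ℝ) + y) / x ≤ 2 := by rw [div_le_iff₀ hxR]; linarith
  have hfac0 : 0 ≤ ((x : ℝ) + y) / x := by positivity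
  have hsq : (L - K) ^ 2 ≤ 1 := by nlinarith
  have hlost : ((x : ℝ) + y) / x * ((L - K) ^ 2 / 2 + K / 2) ≤ 1 + K := by
    refine (mul_le_mul hfac (le_refl _) (by positivity) zero_le_two).trans ?_
    linarith
  have hlost0 : 0 ≤ ((x : ℝ) + y) / x * ((L - K) ^ 2 / 2 + K / 2) := by positivity
  have hone : 1 ≤ X / x := (one_le_div hxR).2 hxX
  have hKx : (K : ℝ) ≤ X / x := hKL.1.trans (div_le_div_of_nonneg_left hX hxR (by linarith))
  rw [abs_le, show 3 * X / (x : ℝ) = 3 * (X / x) by ring]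
  constructor <;> linarith

/-- `∑ 1 / (x + y)` over `0 < y < x`. -/
theorem abs_sum_inv_sub_log_two {x : ℕ} (hx : 0 < x) :
    |∑ y ∈ Ico 1 x, 1 / ((x : ℝ) + y) - log 2| ≤ 1 / x := by
  have hxR : (0 : ℝ) < x := Nat.cast_pos.2 hx
  have hstep : ∀ t : ℝ, 0 < t → log (t + 1) - log t ≤ 1 / t ∧
      1 / (t + 1) ≤ log (t + 1) - log t := fun t ht => by
    rw [← log_div (by linarith) ht.ne']
    refine ⟨(log_le_sub_one_of_pos (by positivity)).trans (le_of_eq ?_),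
      le_trans (le_of_eq ?_) (one_sub_inv_le_log_of_pos (by positivity))⟩
    · field_simp
      ring
    · field_simp
      ring
  obtain ⟨n, rfl⟩ : ∃ n, x = n + 1 := ⟨x - 1, by omega⟩
  rw [sum_Ico_eq_sum_range, Nat.add_sub_cancel]
  set g : ℕ → ℝ := fun i => log (((n + 1 : ℕ) : ℝ) + i) with hg
  have hup : ∑ i ∈ range n, 1 / (((n + 1 : ℕ) : ℝ) + ((1 + i : ℕ) : ℝ)) ≤ g n - g 0 := by
    rw [← sum_range_sub g n]
    refine sum_le_sum fun i _ => ?_
    have h := (hstep (((n + 1 : ℕ) : ℝ) + i) (by positivity)).2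
    simp only [hg]
    push_cast at h ⊢
    rw [add_assoc _ (i : ℝ) 1, add_comm (i : ℝ) 1] at h
    rw [add_comm (i : ℝ) 1]
    exact h
  have hlo : g (n + 1) - g 1 ≤ ∑ i ∈ range n, 1 / (((n + 1 : ℕ) : ℝ) + ((1 + i : ℕ) : ℝ)) := by
    rw [← sum_range_sub (fun i => g (i + 1)) n]
    refine sum_le_sum fun i _ => ?_
    have h := (hstep (((n + 1 : ℕ) : ℝ) + ((1 + i : ℕ) : ℝ)) (by positivity)).1
    simp only [hg]
    push_cast at h ⊢
    rw [add_comm (i : ℝ) 1, add_assoc ((n : ℝ) + 1) (1 + (i : ℝ)) 1] at *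
    exact h
  have h1 : g n - g 0 ≤ log 2 := by
    simp only [hg, Nat.cast_zero, add_zero]
    rw [← log_div (by positivity) (by positivity)]
    refine log_le_log (by positivity) ((div_le_iff₀ (by positivity)).2 ?_)
    push_cast
    linarith
  have h2 : log 2 - 1 / ((n + 1 : ℕ) : ℝ) ≤ g (n + 1) - g 1 := by
    simp only [hg, Nat.cast_one]
    rw [← two_mul, log_mul two_ne_zero (by positivity)]
    have := (hstep ((n + 1 : ℕ) : ℝ) (by positivity)).1
    linarith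
  have : (0 : ℝ) ≤ 1 / ((n + 1 : ℕ) : ℝ) := by positivity
  rw [abs_le]
  constructor <;> linarith

/-- **All quadruples.** -/
theorem abs_card_quads_sub_le {X : ℝ} (hX : 1 ≤ X) :
    |((quads ⌊X⌋₊).card : ℝ) - log 2 / 2 * X ^ 2 * log X| ≤ 16 * X ^ 2 := by
  set N := ⌊X⌋₊
  set R := ⌊√X⌋₊ with hR
  have hX0 : 0 < X := zero_lt_one.trans_le hX
  have hsX : 1 ≤ √X := one_le_sqrt.2 hX
  have hR1 : (R : ℝ) ≤ √X := Nat.floor_le (sqrt_nonneg X)
  have hR2 : √X < R + 1 := Nat.lt_floor_add_one _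
  have hsq : √X * √X = X := mul_self_sqrt hX0.le
  have hRX : (R : ℝ) ^ 2 ≤ X := by nlinarith [Nat.cast_nonneg (α := ℝ) R]
  have hsplit := card_union_add_card_inter ((quads N).filter fun z => z.1.1 ≤ R)
    ((quads N).filter fun z => z.2.1 ≤ R)
  have hunion : ((quads N).filter fun z => z.1.1 ≤ R) ∪ ((quads N).filter fun z => z.2.1 ≤ R) =
      quads N := by
    rw [← filter_or]
    refine filter_true_of_mem fun z hz => ?_
    obtain ⟨⟨x, y⟩, u, v⟩ := z
    obtain ⟨-, -, -, -, hle⟩ := mem_quads.1 hz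
    by_contra! h
    simp only at h
    have h1 : (R + 1) * (R + 1) ≤ N := (Nat.mul_le_mul h.1 h.2).trans (by omega)
    have h2 : (((R + 1) * (R + 1) : ℕ) : ℝ) ≤ X :=
      (Nat.cast_le.2 h1).trans (Nat.floor_le hX0.le)
    push_cast at h2
    nlinarith
  have hswap : ((quads N).filter fun z => z.2.1 ≤ R).card =
      ((quads N).filter fun z => z.1.1 ≤ R).card := by
    refine card_nbij' (fun z => (z.2, z.1)) (fun z => (z.2, z.1)) ?_ ?_ (fun _ _ => rfl)
      (fun _ _ => rfl) <;>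
    · rintro ⟨⟨x, y⟩, u, v⟩ h
      simp only [coe_filter, Set.mem_ofPred_eq, mem_quads] at h ⊢
      rw [Nat.mul_comm u x, Nat.mul_comm v y]
      omega
  have hinter : (((quads N).filter fun z => z.1.1 ≤ R) ∩
      ((quads N).filter fun z => z.2.1 ≤ R)).card ≤ R ^ 4 := by
    refine (card_le_card (t := ((Icc 1 R) ×ˢ (Icc 1 R)) ×ˢ ((Icc 1 R) ×ˢ (Icc 1 R))) ?_).trans ?_
    · rintro ⟨⟨x, y⟩, u, v⟩ h
      simp only [mem_inter, mem_filter, mem_quads, mem_product, mem_Icc] at h ⊢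
      omega
    · simp only [card_product, Nat.card_Icc, Nat.add_sub_cancel]
      exact le_of_eq (by ring)
  rw [hunion, hswap] at hsplit
  have hA : |(((quads N).filter fun z => z.1.1 ≤ R).card : ℝ) -
      log 2 / 4 * X ^ 2 * log X| ≤ 7 * X ^ 2 := by
    rw [card_small_x, Nat.cast_sum]
    have hx : ∀ x ∈ Icc 1 R,
        |((∑ y ∈ Ico 1 x, ∑ v ∈ Icc 1 (N / (x + y)), ((N - y * v) / x - v) : ℕ) : ℝ) -
          X ^ 2 * log 2 / 2 * (x : ℝ)⁻¹| ≤ 3 * X + X ^ 2 / 2 * ((x : ℝ) ^ 2)⁻¹ := fun x hx => by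
      obtain ⟨hx1, hx2⟩ := mem_Icc.1 hx
      have hxR : (0 : ℝ) < x := Nat.cast_pos.2 hx1
      have hxX : (x : ℝ) ≤ X := ((Nat.cast_le.2 hx2).trans hR1).trans (by nlinarith)
      rw [Nat.cast_sum]
      have h1 : |∑ y ∈ Ico 1 x, ((∑ v ∈ Icc 1 (N / (x + y)), ((N - y * v) / x - v) : ℕ) : ℝ) -
          ∑ y ∈ Ico 1 x, X ^ 2 / (2 * x * ((x : ℝ) + y))| ≤ 3 * X := by
        rw [← sum_sub_distrib]
        refine (abs_sum_le_sum_abs _ _).trans ((sum_le_card_nsmul _ _ (3 * X / x) fun y hy =>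
          abs_triangle_sub_le (mem_Ico.1 hy).1 (mem_Ico.1 hy).2 hxX).trans ?_)
        rw [Nat.card_Ico, nsmul_eq_mul]
        refine (mul_le_mul_of_nonneg_right (Nat.cast_le.2 (Nat.sub_le x 1)) (by positivity)).trans
          (le_of_eq ?_)
        field_simp
      have h2 : ∑ y ∈ Ico 1 x, X ^ 2 / (2 * x * ((x : ℝ) + y)) - X ^ 2 * log 2 / 2 * (x : ℝ)⁻¹ =
          X ^ 2 / (2 * x) * (∑ y ∈ Ico 1 x, 1 / ((x : ℝ) + y) - log 2) := by
        rw [mul_sub, mul_sum]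
        congr 1
        · exact sum_congr rfl fun y _ => by rw [mul_one_div, div_div]
        · ring
      have h3 : |∑ y ∈ Ico 1 x, X ^ 2 / (2 * x * ((x : ℝ) + y)) -
          X ^ 2 * log 2 / 2 * (x : ℝ)⁻¹| ≤ X ^ 2 / 2 * ((x : ℝ) ^ 2)⁻¹ := by
        rw [h2, abs_mul, abs_of_nonneg (by positivity : (0 : ℝ) ≤ X ^ 2 / (2 * x))]
        refine (mul_le_mul_of_nonneg_left (abs_sum_inv_sub_log_two hx1) (by positivity)).trans
          (le_of_eq ?_)
        field_simp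
      exact (abs_sub_le _ _ _).trans (add_le_add h1 h3)
    have hsum := (abs_sum_le_sum_abs _ _).trans (sum_le_sum hx)
    rw [sum_sub_distrib, sum_add_distrib, ← mul_sum, ← mul_sum, sum_const, Nat.card_Icc,
      Nat.add_sub_cancel, nsmul_eq_mul] at hsum
    have hh : |∑ x ∈ Icc 1 R, (x : ℝ)⁻¹ - log X / 2| ≤ 1 := by
      have e : ∑ x ∈ Icc 1 R, (x : ℝ)⁻¹ = (harmonic R : ℝ) := by
        rw [harmonic_eq_sum_Icc]; push_cast; rfl
      rw [e, ← log_sqrt hX0.le, abs_le]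
      constructor <;>
        linarith [log_le_harmonic_floor _ (sqrt_nonneg X), harmonic_floor_le_one_add_log _ hsX]
    have hl2 : log 2 ≤ 1 := (log_le_sub_one_of_pos two_pos).trans (by norm_num)
    have hh' : |X ^ 2 * log 2 / 2 * ∑ x ∈ Icc 1 R, (x : ℝ)⁻¹ - log 2 / 4 * X ^ 2 * log X| ≤
        X ^ 2 / 2 := by
      rw [show X ^ 2 * log 2 / 2 * ∑ x ∈ Icc 1 R, (x : ℝ)⁻¹ - log 2 / 4 * X ^ 2 * log X =
        X ^ 2 * log 2 / 2 * (∑ x ∈ Icc 1 R, (x : ℝ)⁻¹ - log X / 2) by ring, abs_mul,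
        abs_of_nonneg (by positivity : (0 : ℝ) ≤ X ^ 2 * log 2 / 2)]
      calc _ ≤ X ^ 2 * log 2 / 2 * 1 := mul_le_mul_of_nonneg_left hh (by positivity)
        _ ≤ _ := by nlinarith
    refine (abs_sub_le _ _ _).trans ((add_le_add hsum hh').trans ?_)
    have hRle : (R : ℝ) ≤ X := hR1.trans (by nlinarith)
    rw [← mul_sum]
    nlinarith [mul_le_mul_of_nonneg_left (sum_inv_sq_le R) (show 0 ≤ X ^ 2 / 2 by positivity),
      mul_le_mul_of_nonneg_right hRle hX0.le]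
  have hinter' : (((((quads N).filter fun z => z.1.1 ≤ R) ∩
      ((quads N).filter fun z => z.2.1 ≤ R)).card : ℕ) : ℝ) ≤ X ^ 2 := by
    refine (Nat.cast_le.2 hinter).trans ?_
    push_cast
    nlinarith [pow_le_pow_left₀ (sq_nonneg (R : ℝ)) hRX 2]
  have hcast := congrArg (Nat.cast (R := ℝ)) hsplit
  push_cast at hcast
  obtain ⟨a1, a2⟩ := abs_le.1 hA
  rw [abs_le]
  constructor <;> linarith [Nat.cast_nonneg (α := ℝ) (((quads N).filter fun z => z.1.1 ≤ R) ∩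
    ((quads N).filter fun z => z.2.1 ≤ R)).card, sq_nonneg X]

/-- **Möbius inversion.** -/
theorem card_coprimeQuads_eq (N : ℕ) :
    ((coprimeQuads N).card : ℤ) = ∑ d ∈ Icc 1 N, μ d * ((quads (N / d)).card : ℤ) := by
  have hfib : ∀ d ∈ Icc 1 N, (quads (N / d)).card =
      ((quads N).filter fun z => d ∣ z.1.1 ∧ d ∣ z.1.2).card := fun d hd => by
    have hd0 : 0 < d := (mem_Icc.1 hd).1
    refine card_nbij' (fun z => ((d * z.1.1, d * z.1.2), z.2))
      (fun z => ((z.1.1 / d, z.1.2 / d), z.2)) ?_ ?_ ?_ ?_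
    · rintro ⟨⟨x, y⟩, u, v⟩ h
      simp only [mem_coe, coe_filter, Set.mem_ofPred_eq, mem_quads] at h ⊢
      obtain ⟨hy, hyx, hv, hvu, hle⟩ := h
      refine ⟨⟨Nat.mul_pos hd0 hy, Nat.mul_lt_mul_of_pos_left hyx hd0, hv, hvu, ?_⟩,
        dvd_mul_right d x, dvd_mul_right d y⟩
      rw [Nat.le_div_iff_mul_le hd0] at hle
      calc d * x * u + d * y * v = (x * u + y * v) * d := by ring
        _ ≤ N := hle
    · rintro ⟨⟨x, y⟩, u, v⟩ h
      simp only [mem_coe, coe_filter, Set.mem_ofPred_eq, mem_quads] at h ⊢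
      obtain ⟨⟨hy, hyx, hv, hvu, hle⟩, ⟨x', rfl⟩, ⟨y', rfl⟩⟩ := h
      rw [Nat.mul_div_cancel_left _ hd0, Nat.mul_div_cancel_left _ hd0,
        Nat.le_div_iff_mul_le hd0]
      refine ⟨Nat.pos_of_mul_pos_left hy, Nat.lt_of_mul_lt_mul_left hyx, hv, hvu, ?_⟩
      calc (x' * u + y' * v) * d = d * x' * u + d * y' * v := by ring
        _ ≤ N := hle
    · rintro ⟨⟨x, y⟩, u, v⟩ -
      simp [Nat.mul_div_cancel_left _ hd0]
    · rintro ⟨⟨x, y⟩, u, v⟩ h
      simp only [coe_filter, Set.mem_ofPred_eq] at h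
      simp [Nat.mul_div_cancel' h.2.1, Nat.mul_div_cancel' h.2.2]
  have hμ : ∀ g : ℕ, ∑ d ∈ g.divisors, (μ d : ℤ) = if g = 1 then 1 else 0 := fun g => by
    rw [← ArithmeticFunction.coe_mul_zeta_apply, ArithmeticFunction.moebius_mul_coe_zeta,
      ArithmeticFunction.one_apply]
  calc ((coprimeQuads N).card : ℤ)
      = ∑ z ∈ quads N, ∑ d ∈ Icc 1 N, if d ∣ z.1.1 ∧ d ∣ z.1.2 then (μ d : ℤ) else 0 := by
        rw [coprimeQuads, card_filter, Nat.cast_sum]
        refine sum_congr rfl fun z hz => ?_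
        obtain ⟨⟨x, y⟩, u, v⟩ := z
        obtain ⟨hy, hyx, hv, hvu, hle⟩ := mem_quads.1 hz
        have hg : (Icc 1 N).filter (fun d => d ∣ x ∧ d ∣ y) = (Nat.gcd x y).divisors := by
          ext d
          simp only [mem_filter, mem_Icc, Nat.mem_divisors, Nat.dvd_gcd_iff]
          have hg0 : Nat.gcd x y ≠ 0 := (Nat.gcd_pos_of_pos_right x hy).ne'
          refine ⟨fun h => ⟨h.2, hg0⟩, fun h => ⟨⟨Nat.pos_of_dvd_of_pos h.1.2 hy, ?_⟩, h.1⟩⟩
          have := Nat.le_of_dvd hy h.1.2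
          have : y ≤ y * v := Nat.le_mul_of_pos_right y hv
          omega
        simp only
        rw [← sum_filter, hg, hμ]
        simp only [Nat.Coprime]
        split_ifs <;> rfl
    _ = _ := by
        rw [sum_comm]
        refine sum_congr rfl fun d hd => ?_
        rw [← sum_filter, sum_const, nsmul_eq_mul, hfib d hd, mul_comm]

theorem summable_log_div_sq : Summable fun d : ℕ => log d / (d : ℝ) ^ 2 := by
  refine ((Real.summable_one_div_nat_rpow.2 (show (1 : ℝ) < 3 / 2 by norm_num)).mul_left 2)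
    |>.of_nonneg_of_le (fun d => div_nonneg (log_natCast_nonneg d) (sq_nonneg _)) fun d => ?_
  rcases Nat.eq_zero_or_pos d with rfl | hd
  · simp
  have hdR : (0 : ℝ) < d := Nat.cast_pos.2 hd
  refine (div_le_div_of_nonneg_right (log_le_rpow_div hdR.le (show (0 : ℝ) < 1 / 2 by norm_num))
    (sq_nonneg _)).trans (le_of_eq ?_)
  rw [show (3 : ℝ) / 2 = 2 - 1 / 2 by norm_num, rpow_sub hdR, rpow_two]
  field_simp

theorem abs_sum_moebius_sub_le (N : ℕ) :
    |∑ d ∈ Icc 1 N, (μ d : ℝ) / (d : ℝ) ^ 2 - 6 / π ^ 2| ≤ 2 / ((N : ℝ) + 1) := by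
  set g : ℕ → ℝ := fun d => (μ d : ℝ) / (d : ℝ) ^ 2 with hgdef
  have hb : ∀ d, |g d| ≤ ((d : ℝ) ^ 2)⁻¹ := fun d => by
    rw [hgdef, abs_div, abs_of_nonneg (sq_nonneg (d : ℝ)), div_eq_mul_inv]
    refine mul_le_of_le_one_left (by positivity) ?_
    exact_mod_cast ArithmeticFunction.abs_moebius_le_one
  have hg : Summable g := Summable.of_norm_bounded
    (Real.summable_nat_pow_inv.2 one_lt_two) fun d => hb d
  have htotal : ∑' d, g d = 6 / π ^ 2 := by
    rw [FA.MinkowskiHlawka.tsum_moebius_div_pow one_lt_two, FA.MinkowskiHlawka.zetaNat,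
      hasSum_zeta_two.tsum_eq, inv_div]
  have hr : range (N + 1) = insert 0 (Icc 1 N) := by
    ext d
    simp only [mem_range, mem_insert, mem_Icc]
    omega
  have h := hg.sum_add_tsum_nat_add (N + 1)
  rw [hr, sum_insert (by simp), htotal, show g 0 = 0 by simp [hgdef], zero_add] at h
  have htail : ∑' i, |g (i + (N + 1))| ≤ 2 / ((N : ℝ) + 1) := by
    refine Real.tsum_le_of_sum_range_le (fun i => abs_nonneg _) fun n => ?_
    refine (sum_le_sum fun i _ => hb _).trans (le_trans (le_of_eq ?_)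
      (sum_Ioo_inv_sq_le (α := ℝ) N (N + 1 + n)))
    rw [show Ioo N (N + 1 + n) = Ico (N + 1) (N + 1 + n) by
        ext; simp only [mem_Ioo, mem_Ico]; omega,
      sum_Ico_eq_sum_range, Nat.add_sub_cancel_left]
    exact sum_congr rfl fun i _ => by rw [Nat.add_comm (N + 1) i]
  rw [← h, sub_add_cancel_left, abs_neg]
  refine le_trans ?_ htail
  have hs : Summable fun i => |g (i + (N + 1))| :=
    ((summable_nat_add_iff (N + 1)).2 hg).abs
  have := norm_tsum_le_tsum_norm (f := fun i => g (i + (N + 1))) (by simpa using hs)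
  simpa only [Real.norm_eq_abs] using this

/-- **The coprime quadruples.** -/
theorem exists_abs_card_coprimeQuads_sub_le : ∃ C : ℝ, ∀ N : ℕ, 1 ≤ N →
    |((coprimeQuads N).card : ℝ) - 3 * log 2 / π ^ 2 * (N : ℝ) ^ 2 * log N| ≤
      C * (N : ℝ) ^ 2 := by
  set D := ∑' d : ℕ, log d / (d : ℝ) ^ 2 with hD
  refine ⟨32 + (D + 2), fun N hN => ?_⟩
  have hNR : (1 : ℝ) ≤ N := by exact_mod_cast hN
  have hN0 : (0 : ℝ) < N := by linarith
  have hl2 : log 2 ≤ 1 := (log_le_sub_one_of_pos two_pos).trans (by norm_num)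
  have hl20 : 0 ≤ log 2 := (log_pos one_lt_two).le
  set c := log 2 / 2 with hc
  have h := congrArg (Int.cast (R := ℝ)) (card_coprimeQuads_eq N)
  push_cast at h
  have hmain : |((coprimeQuads N).card : ℝ) -
      ∑ d ∈ Icc 1 N, (μ d : ℝ) * (c * ((N : ℝ) / d) ^ 2 * log ((N : ℝ) / d))| ≤
      32 * (N : ℝ) ^ 2 := by
    rw [h, ← sum_sub_distrib]
    refine (abs_sum_le_sum_abs _ _).trans ((sum_le_sum fun d hd => ?_).trans
      (show ∑ d ∈ Icc 1 N, 16 * (N : ℝ) ^ 2 * ((d : ℝ) ^ 2)⁻¹ ≤ _ by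
        rw [← mul_sum]
        nlinarith [sum_inv_sq_le N, sq_nonneg (N : ℝ)]))
    obtain ⟨hd1, hd2⟩ := mem_Icc.1 hd
    have hdR : (0 : ℝ) < d := Nat.cast_pos.2 hd1
    have hT := abs_card_quads_sub_le ((one_le_div hdR).2 (Nat.cast_le.2 hd2))
    rw [Nat.floor_div_eq_div] at hT
    rw [← mul_sub, abs_mul]
    refine (mul_le_mul (by exact_mod_cast ArithmeticFunction.abs_moebius_le_one) hT
      (abs_nonneg _) zero_le_one).trans (le_of_eq ?_)
    ring
  have hexp : ∑ d ∈ Icc 1 N, (μ d : ℝ) * (c * ((N : ℝ) / d) ^ 2 * log ((N : ℝ) / d)) =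
      c * (N : ℝ) ^ 2 * (log N * ∑ d ∈ Icc 1 N, (μ d : ℝ) / (d : ℝ) ^ 2 -
        ∑ d ∈ Icc 1 N, (μ d : ℝ) * (log d / (d : ℝ) ^ 2)) := by
    rw [mul_sum, ← sum_sub_distrib, mul_sum]
    refine sum_congr rfl fun d hd => ?_
    rw [log_div hN0.ne' (Nat.cast_ne_zero.2 (by have := (mem_Icc.1 hd).1; omega))]
    ring
  have hD' : |∑ d ∈ Icc 1 N, (μ d : ℝ) * (log d / (d : ℝ) ^ 2)| ≤ D := by
    refine (abs_sum_le_sum_abs _ _).trans ((sum_le_sum fun d _ => ?_).trans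
      (summable_log_div_sq.sum_le_tsum _ fun d _ =>
        div_nonneg (log_natCast_nonneg d) (sq_nonneg _)))
    rw [abs_mul, abs_of_nonneg (div_nonneg (log_natCast_nonneg d) (sq_nonneg (d : ℝ)))]
    exact mul_le_of_le_one_left (div_nonneg (log_natCast_nonneg d) (sq_nonneg _))
      (by exact_mod_cast ArithmeticFunction.abs_moebius_le_one)
  have htail : |log N * (∑ d ∈ Icc 1 N, (μ d : ℝ) / (d : ℝ) ^ 2 - 6 / π ^ 2)| ≤ 2 := by
    rw [abs_mul, abs_of_nonneg (log_natCast_nonneg N)]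
    refine (mul_le_mul_of_nonneg_left (abs_sum_moebius_sub_le N) (log_natCast_nonneg N)).trans ?_
    rw [mul_div_assoc', div_le_iff₀ (by positivity)]
    linarith [log_le_sub_one_of_pos hN0]
  have hsecond : |∑ d ∈ Icc 1 N, (μ d : ℝ) * (c * ((N : ℝ) / d) ^ 2 * log ((N : ℝ) / d)) -
      3 * log 2 / π ^ 2 * (N : ℝ) ^ 2 * log N| ≤ (D + 2) * (N : ℝ) ^ 2 := by
    rw [hexp, show 3 * log 2 / π ^ 2 * (N : ℝ) ^ 2 * log N =
      c * (N : ℝ) ^ 2 * (log N * (6 / π ^ 2)) by rw [hc]; ring, ← mul_sub, abs_mul,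
      abs_of_nonneg (by positivity : 0 ≤ c * (N : ℝ) ^ 2), sub_right_comm, ← mul_sub]
    calc _ ≤ c * (N : ℝ) ^ 2 * (2 + D) :=
          mul_le_mul_of_nonneg_left ((abs_sub _ _).trans (add_le_add htail hD')) (by positivity)
      _ ≤ 1 * (N : ℝ) ^ 2 * (2 + D) := by
          have : 0 ≤ D := tsum_nonneg fun d => div_nonneg (log_natCast_nonneg d) (sq_nonneg _)
          gcongr
          rw [hc]
          linarith
      _ = _ := by ring
  refine (abs_sub_le _ _ _).trans ((add_le_add hmain hsecond).trans (le_of_eq ?_))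
  ring

theorem two_mul_card_allPairs (N : ℕ) : 2 * (allPairs N).card = N * (N - 1) := by
  induction N with
  | zero => rfl
  | succ N ih =>
    have e : allPairs (N + 1) = allPairs N ∪ (Icc 1 N).image (fun a => (a, N + 1)) := by
      ext ⟨a, b⟩
      simp only [mem_union, mem_allPairs, mem_image, mem_Icc, Prod.mk.injEq]
      refine ⟨fun h => ?_, ?_⟩
      · rcases Nat.lt_or_ge N b with h' | h'
        · exact Or.inr ⟨a, by omega, rfl, by omega⟩
        · exact Or.inl (by omega)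
      · rintro (h | ⟨c, h, rfl, rfl⟩) <;> omega
    have hd : Disjoint (allPairs N) ((Icc 1 N).image (fun a => (a, N + 1))) := by
      rw [disjoint_left]
      rintro ⟨a, b⟩ h h'
      simp only [mem_allPairs] at h
      simp only [mem_image, Prod.mk.injEq] at h'
      obtain ⟨c, -, -, rfl⟩ := h'
      omega
    rw [e, card_union_of_disjoint hd, card_image_of_injective _ fun a b h => congrArg Prod.fst h,
      Nat.card_Icc, Nat.add_sub_cancel, Nat.mul_add, ih]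
    rcases N with - | n
    · rfl
    · simp only [Nat.add_sub_cancel]
      ring

/-- **The average.** -/
theorem exists_abs_average_sub_le : ∃ C : ℝ, ∀ N : ℕ, 2 ≤ N →
    |((∑ z ∈ allPairs N, steps z.1 z.2 : ℕ) : ℝ) / ((allPairs N).card : ℝ) -
      12 * log 2 / π ^ 2 * log N| ≤ C := by
  obtain ⟨C, hC⟩ := exists_abs_card_coprimeQuads_sub_le
  set k := 6 * log 2 / π ^ 2 with hk
  have hk0 : 0 ≤ k := by
    have := log_pos one_lt_two
    positivity
  refine ⟨4 * (2 * C + 12 + k), fun N hN => ?_⟩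
  have hNR : (2 : ℝ) ≤ N := by exact_mod_cast hN
  obtain ⟨hs1, hs2⟩ := sum_allPairs N
  set D := ∑ z ∈ allPairs N, steps z.1 z.2
  have hs1' := (Nat.cast_le (α := ℝ)).2 hs1
  have hs2' := (Nat.cast_le (α := ℝ)).2 hs2
  push_cast at hs1' hs2'
  have hP : ((allPairs N).card : ℝ) = N * ((N : ℝ) - 1) / 2 := by
    have := congrArg (Nat.cast (R := ℝ)) (two_mul_card_allPairs N)
    push_cast [Nat.cast_sub (show 1 ≤ N by omega)] at this
    linarith
  obtain ⟨c1, c2⟩ := abs_le.1 (hC N (by omega))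
  have hl : log (N : ℝ) ≤ N := (log_le_sub_one_of_pos (by linarith)).trans (by linarith)
  have hl0 := log_natCast_nonneg N
  have hsq : ((N : ℝ) + 1) ^ 2 ≤ 4 * (N : ℝ) ^ 2 := by nlinarith
  have hNl : k * ((N : ℝ) * log N) ≤ k * (N : ℝ) ^ 2 := by
    rw [sq]
    exact mul_le_mul_of_nonneg_left (mul_le_mul_of_nonneg_left hl (Nat.cast_nonneg N)) hk0
  have he : 3 * log 2 / π ^ 2 * (N : ℝ) ^ 2 * log N = k / 2 * ((N : ℝ) ^ 2 * log N) := by
    rw [hk]; ring
  rw [he] at c1 c2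
  have hkey : |(D : ℝ) - k * ((N : ℝ) * ((N : ℝ) - 1) * log N)| ≤
      (2 * C + 12 + k) * (N : ℝ) ^ 2 := by
    have h0 : 0 ≤ k * ((N : ℝ) * log N) := mul_nonneg hk0 (mul_nonneg (Nat.cast_nonneg N) hl0)
    rw [abs_le]
    constructor <;> nlinarith
  have hPpos : (0 : ℝ) < N * ((N : ℝ) - 1) / 2 := by nlinarith
  rw [hP, show 12 * log 2 / π ^ 2 * log N =
      k * ((N : ℝ) * ((N : ℝ) - 1) * log N) / (N * ((N : ℝ) - 1) / 2) by
    rw [hk]
    have : (N : ℝ) - 1 ≠ 0 := by linarith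
    field_simp
    ring, ← sub_div, abs_div, abs_of_pos hPpos, div_le_iff₀ hPpos]
  refine hkey.trans ?_
  have h0 : 0 ≤ 2 * C + 12 + k := nonneg_of_mul_nonneg_left
    ((abs_nonneg _).trans hkey) (by positivity)
  have hN2 : (N : ℝ) ^ 2 ≤ 4 * (N * ((N : ℝ) - 1) / 2) := by nlinarith
  calc (2 * C + 12 + k) * (N : ℝ) ^ 2
      ≤ (2 * C + 12 + k) * (4 * (N * ((N : ℝ) - 1) / 2)) := mul_le_mul_of_nonneg_left hN2 h0
    _ = _ := by ring

end FA.EuclideanSteps

end
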