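import Mathlib.Data.Nat.Fib.Basic
import Mathlib.Algebra.BigOperators.Group.Finset.Basic
import Mathlib.Data.Fintype.Prod
import Mathlib.Tactic

/-!
# The steps of the Euclidean algorithm

The quadruples `(x, y, u, v)` with `0 < y < x`, `gcd (x, y) = 1`, `0 < v < u`, `x u + y v ≤ N` are
as many as the divisions, beyond the first, over the pairs `2 a ≤ b ≤ N`: those with `y = 1` are
the pairs, and the others are moved onto those with `v ∤ u` by `(x, y, u, v) ↦
(y, x % y, (x / y) u + v, u)`.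
-/

set_option autoImplicit false

open Finset

namespace FA.EuclideanSteps

/-- The number of divisions for `gcd (b, a)`. -/
def steps (a b : ℕ) : ℕ :=
  if _h : a = 0 then 0 else steps (b % a) a + 1
termination_by a
decreasing_by exact Nat.mod_lt _ (Nat.pos_of_ne_zero _h)

theorem steps_zero (b : ℕ) : steps 0 b = 0 := by rw [steps]; simp

theorem steps_pos {a : ℕ} (ha : 0 < a) (b : ℕ) : steps a b = steps (b % a) a + 1 := by
  rw [steps, dif_neg ha.ne']

theorem one_le_steps {a : ℕ} (ha : 0 < a) (b : ℕ) : 1 ≤ steps a b := by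
  rw [steps_pos ha]; omega

theorem steps_congr {a b c : ℕ} (h : b % a = c % a) : steps a b = steps a c := by
  rcases Nat.eq_zero_or_pos a with rfl | ha
  · rw [steps_zero, steps_zero]
  · rw [steps_pos ha, steps_pos ha, h]

/-- **Lamé's theorem.** -/
theorem lame : ∀ (n : ℕ) {a b : ℕ}, 0 < a → a < b → n ≤ steps a b →
    Nat.fib (n + 1) ≤ a ∧ Nat.fib (n + 2) ≤ b
  | 0, a, b, ha, hab, _ => ⟨ha, show 1 ≤ b by omega⟩
  | n + 1, a, b, ha, hab, h => by
    rw [steps_pos ha] at h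
    have hd := Nat.div_add_mod b a
    rcases Nat.eq_zero_or_pos (b % a) with hr | hr
    · rw [hr, steps_zero] at h
      obtain rfl : n = 0 := by omega
      exact ⟨ha, show 2 ≤ b by omega⟩
    · obtain ⟨h1, h2⟩ := lame n hr (Nat.mod_lt b ha) (by omega)
      have hq : a ≤ a * (b / a) := Nat.le_mul_of_pos_right a (Nat.div_pos hab.le ha)
      rw [show n + 1 + 2 = (n + 1) + 2 from rfl, Nat.fib_add_two (n := n + 1)]
      exact ⟨h2, show Nat.fib (n + 1) + Nat.fib (n + 2) ≤ b by omega⟩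

theorem ten_pow_lt_fib : ∀ k : ℕ, 0 < k → 10 ^ k < Nat.fib (5 * k + 2)
  | 1, _ => by decide
  | k + 2, _ => by
    have ih := ten_pow_lt_fib (k + 1) k.succ_pos
    have h : ∀ m, 10 * Nat.fib (m + 2) ≤ Nat.fib (m + 7) := fun m => by
      have := Nat.fib_le_fib_succ (n := m)
      simp only [Nat.fib_add_two] at *
      omega
    rw [pow_succ, show 5 * (k + 2) + 2 = (5 * (k + 1)) + 7 by ring]
    have := h (5 * (k + 1))
    omega

/-- **Lamé**: at most five divisions for each decimal digit of the smaller number. -/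
theorem steps_le_five_mul {a b k : ℕ} (ha : 0 < a) (hab : a < b) (hk : a < 10 ^ k) :
    steps a b ≤ 5 * k := by
  rcases Nat.eq_zero_or_pos k with rfl | hk0
  · simp at hk; omega
  by_contra! h
  obtain ⟨h1, -⟩ := lame (5 * k + 1) ha hab h
  have := ten_pow_lt_fib k hk0
  rw [show 5 * k + 1 + 1 = 5 * k + 2 from rfl] at h1
  omega

/-! ### Quadruples -/

/-- All quadruples. -/
def quads (N : ℕ) : Finset ((ℕ × ℕ) × ℕ × ℕ) :=
  (((range (N + 1)) ×ˢ (range (N + 1))) ×ˢ ((range (N + 1)) ×ˢ (range (N + 1)))).filter fun z =>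
    0 < z.1.2 ∧ z.1.2 < z.1.1 ∧ 0 < z.2.2 ∧ z.2.2 < z.2.1 ∧ z.1.1 * z.2.1 + z.1.2 * z.2.2 ≤ N

theorem mem_quads {N x y u v : ℕ} :
    ((x, y), (u, v)) ∈ quads N ↔ 0 < y ∧ y < x ∧ 0 < v ∧ v < u ∧ x * u + y * v ≤ N := by
  simp only [quads, mem_filter, mem_product, mem_range]
  refine ⟨fun h => h.2, fun h => ⟨?_, h⟩⟩
  obtain ⟨h1, h2, h3, h4, h5⟩ := h
  have : x ≤ x * u := Nat.le_mul_of_pos_right x (by omega)
  have : u ≤ x * u := Nat.le_mul_of_pos_left u (by omega)
  omega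

/-- Those with coprime `(x, y)`. -/
def coprimeQuads (N : ℕ) : Finset ((ℕ × ℕ) × ℕ × ℕ) :=
  (quads N).filter fun z => Nat.Coprime z.1.1 z.1.2

/-- The pairs `0 < a`, `2 a ≤ b ≤ N`. -/
def halfPairs (N : ℕ) : Finset (ℕ × ℕ) :=
  ((range (N + 1)) ×ˢ (range (N + 1))).filter fun z => 0 < z.1 ∧ 2 * z.1 ≤ z.2

theorem mem_halfPairs {N a b : ℕ} : (a, b) ∈ halfPairs N ↔ 0 < a ∧ 2 * a ≤ b ∧ b ≤ N := by
  simp only [halfPairs, mem_filter, mem_product, mem_range]
  omega

/-- **The quadruples count the divisions.** -/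
theorem card_coprimeQuads (N : ℕ) :
    (coprimeQuads N).card = ∑ z ∈ halfPairs N, (steps z.1 z.2 - 1) := by
  set f : (ℕ × ℕ) × ℕ × ℕ → ℕ := fun z => steps z.2.2 z.2.1
  have hsplit := sum_filter_add_sum_filter_not (coprimeQuads N) (fun z => z.1.2 = 1) f
  have hmove : ∑ z ∈ (coprimeQuads N).filter (fun z => ¬z.1.2 = 1), f z =
      ∑ z ∈ (coprimeQuads N).filter (fun z => ¬z.2.1 % z.2.2 = 0),
        steps (z.2.1 % z.2.2) z.2.2 := by
    refine sum_nbij' (fun z => ((z.1.2, z.1.1 % z.1.2), (z.1.1 / z.1.2 * z.2.1 + z.2.2, z.2.1)))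
      (fun z => ((z.2.1 / z.2.2 * z.1.1 + z.1.2, z.1.1), (z.2.2, z.2.1 % z.2.2))) ?_ ?_ ?_ ?_ ?_
    · rintro ⟨⟨x, y⟩, u, v⟩ h
      simp only [coprimeQuads, mem_filter, mem_quads] at h ⊢
      obtain ⟨⟨⟨hy, hyx, hv, hvu, hle⟩, hc⟩, hy1⟩ := h
      have hr : 0 < x % y := by
        refine Nat.pos_of_ne_zero fun e => hy1 ?_
        exact (Nat.gcd_eq_right (Nat.dvd_of_mod_eq_zero e)).symm.trans hc
      have hu : u ≤ x / y * u := Nat.le_mul_of_pos_left u (Nat.div_pos hyx.le hy)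
      refine ⟨⟨⟨hr, Nat.mod_lt x hy, by omega, by omega, ?_⟩, ?_⟩, ?_⟩
      · calc y * (x / y * u + v) + x % y * u = (y * (x / y) + x % y) * u + y * v := by ring
          _ = x * u + y * v := by rw [Nat.div_add_mod]
          _ ≤ N := hle
      · rw [Nat.Coprime, Nat.gcd_comm, ← Nat.gcd_rec, Nat.gcd_comm]
        exact hc
      · rw [Nat.mul_add_mod', Nat.mod_eq_of_lt hvu]
        omega
    · rintro ⟨⟨x, y⟩, u, v⟩ h
      simp only [coprimeQuads, mem_filter, mem_quads] at h ⊢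
      obtain ⟨⟨⟨hy, hyx, hv, hvu, hle⟩, hc⟩, hr⟩ := h
      have hx : x ≤ u / v * x := Nat.le_mul_of_pos_left x (Nat.div_pos hvu.le hv)
      refine ⟨⟨⟨by omega, by omega, Nat.pos_of_ne_zero hr, Nat.mod_lt u hv, ?_⟩, ?_⟩, by omega⟩
      · calc (u / v * x + y) * v + x * (u % v) = x * (v * (u / v) + u % v) + y * v := by ring
          _ = x * u + y * v := by rw [Nat.div_add_mod]
          _ ≤ N := hle
      · rw [Nat.Coprime, Nat.gcd_mul_right_add_left]
        exact (Nat.gcd_comm y x).trans hc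
    · rintro ⟨⟨x, y⟩, u, v⟩ h
      simp only [coprimeQuads, mem_filter, mem_quads] at h
      obtain ⟨⟨⟨hy, hyx, hv, hvu, hle⟩, hc⟩, hy1⟩ := h
      have e : (x / y * u + v) / u = x / y := by
        rw [Nat.mul_comm, Nat.mul_add_div (by omega), Nat.div_eq_of_lt hvu, add_zero]
      simp only [e, Nat.mul_add_mod', Nat.mod_eq_of_lt hvu, Nat.div_add_mod']
    · rintro ⟨⟨x, y⟩, u, v⟩ h
      simp only [coprimeQuads, mem_filter, mem_quads] at h
      obtain ⟨⟨⟨hy, hyx, hv, hvu, hle⟩, hc⟩, hr⟩ := h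
      have e : (u / v * x + y) / x = u / v := by
        rw [Nat.mul_comm, Nat.mul_add_div (by omega), Nat.div_eq_of_lt hyx, add_zero]
      simp only [e, Nat.mul_add_mod', Nat.mod_eq_of_lt hyx, Nat.div_add_mod']
    · rintro ⟨⟨x, y⟩, u, v⟩ h
      simp only [coprimeQuads, mem_filter, mem_quads] at h
      obtain ⟨⟨⟨-, -, -, hvu, -⟩, -⟩, -⟩ := h
      simp only [f, Nat.mul_add_mod', Nat.mod_eq_of_lt hvu]
  have hdrop : ∑ z ∈ (coprimeQuads N).filter (fun z => ¬z.2.1 % z.2.2 = 0),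
      steps (z.2.1 % z.2.2) z.2.2 = ∑ z ∈ coprimeQuads N, steps (z.2.1 % z.2.2) z.2.2 := by
    refine sum_filter_of_ne fun z _ h e => h ?_
    rw [e, steps_zero]
  have hf : ∑ z ∈ coprimeQuads N, f z =
      (∑ z ∈ coprimeQuads N, steps (z.2.1 % z.2.2) z.2.2) + (coprimeQuads N).card := by
    rw [card_eq_sum_ones, ← sum_add_distrib]
    refine sum_congr rfl fun z hz => ?_
    simp only [coprimeQuads, mem_filter] at hz
    exact steps_pos ((mem_quads (x := z.1.1) (y := z.1.2)).1 hz.1).2.2.1 _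
  have hbase : ∑ z ∈ (coprimeQuads N).filter (fun z => z.1.2 = 1), f z =
      ∑ z ∈ halfPairs N, (steps z.1 z.2 - 1) := by
    rw [← sum_filter_of_ne (s := halfPairs N) (p := fun z => z.2 % z.1 ≠ 0) fun z hz h e => h ?_]
    · refine sum_nbij' (fun z => (z.2.1, z.1.1 * z.2.1 + z.2.2))
        (fun z => ((z.2 / z.1, 1), (z.1, z.2 % z.1))) ?_ ?_ ?_ ?_ ?_
      · rintro ⟨⟨x, y⟩, u, v⟩ h
        simp only [coprimeQuads, mem_filter, mem_quads,
          mem_halfPairs] at h ⊢
        obtain ⟨⟨⟨-, hyx, hv, hvu, hle⟩, -⟩, rfl⟩ := h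
        have : 2 * u ≤ x * u := Nat.mul_le_mul_right u hyx
        refine ⟨⟨by omega, by omega, by omega⟩, ?_⟩
        rw [Nat.mul_add_mod', Nat.mod_eq_of_lt hvu]
        omega
      · rintro ⟨a, b⟩ h
        simp only [coprimeQuads, mem_filter, mem_quads,
          mem_halfPairs] at h ⊢
        obtain ⟨⟨ha, hab, hb⟩, hr⟩ := h
        have hq : 2 ≤ b / a := (Nat.le_div_iff_mul_le ha).2 hab
        refine ⟨⟨⟨one_pos, hq, Nat.pos_of_ne_zero hr, Nat.mod_lt b ha, ?_⟩,
          Nat.coprime_one_right _⟩, trivial⟩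
        rw [one_mul, Nat.div_add_mod']
        exact hb
      · rintro ⟨⟨x, y⟩, u, v⟩ h
        simp only [coprimeQuads, mem_filter, mem_quads] at h
        obtain ⟨⟨⟨-, -, hv, hvu, -⟩, -⟩, rfl⟩ := h
        have e : (x * u + v) / u = x := by
          rw [Nat.mul_comm, Nat.mul_add_div (by omega), Nat.div_eq_of_lt hvu, add_zero]
        simp only [e, Nat.mul_add_mod', Nat.mod_eq_of_lt hvu]
      · rintro ⟨a, b⟩ -
        simp only [Nat.div_add_mod']
      · rintro ⟨⟨x, y⟩, u, v⟩ h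
        simp only [coprimeQuads, mem_filter, mem_quads] at h
        obtain ⟨⟨⟨-, -, hv, hvu, -⟩, -⟩, -⟩ := h
        simp only [f]
        rw [steps_pos (a := u) (by omega), Nat.mul_add_mod', Nat.mod_eq_of_lt hvu,
          Nat.add_sub_cancel]
    · obtain ⟨ha, -, -⟩ := (mem_halfPairs (a := z.1) (b := z.2)).1 hz
      rw [steps_pos ha, e, steps_zero, Nat.zero_add, Nat.sub_self]
  rw [hmove, hdrop, hbase, hf] at hsplit
  omega

/-- The pairs `0 < a < b ≤ N`. -/
def allPairs (N : ℕ) : Finset (ℕ × ℕ) :=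
  ((range (N + 1)) ×ˢ (range (N + 1))).filter fun z => 0 < z.1 ∧ z.1 < z.2

theorem mem_allPairs {N a b : ℕ} : (a, b) ∈ allPairs N ↔ 0 < a ∧ a < b ∧ b ≤ N := by
  simp only [allPairs, mem_filter, mem_product, mem_range]
  omega

theorem card_allPairs_le (N : ℕ) : (allPairs N).card ≤ (N + 1) ^ 2 := by
  refine (card_filter_le _ _).trans ?_
  rw [card_product, card_range, sq]

/-- Both halves of the pairs. -/
theorem sum_allPairs (N : ℕ) :
    ∑ z ∈ allPairs N, steps z.1 z.2 ≤ 2 * (coprimeQuads N).card + 3 * (N + 1) ^ 2 ∧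
      2 * (coprimeQuads N).card ≤ ∑ z ∈ allPairs N, steps z.1 z.2 + (N + 1) ^ 2 := by
  have hsplit := sum_filter_add_sum_filter_not (allPairs N) (fun z => 2 * z.1 ≤ z.2)
    (fun z => steps z.1 z.2)
  have hh : (allPairs N).filter (fun z => 2 * z.1 ≤ z.2) = halfPairs N := by
    ext ⟨a, b⟩
    simp only [mem_filter, mem_allPairs, mem_halfPairs]
    omega
  have hrefl : ∑ z ∈ (allPairs N).filter (fun z => ¬2 * z.1 ≤ z.2), steps z.1 z.2 =
      ∑ z ∈ (halfPairs N).filter (fun z => 2 * z.1 < z.2), (steps z.1 z.2 + 1) := by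
    refine sum_nbij' (fun z => (z.2 - z.1, z.2)) (fun z => (z.2 - z.1, z.2)) ?_ ?_ ?_ ?_ ?_
    · rintro ⟨a, b⟩ h
      simp only [mem_filter, mem_allPairs, mem_halfPairs] at h ⊢
      omega
    · rintro ⟨a, b⟩ h
      simp only [mem_filter, mem_allPairs, mem_halfPairs] at h ⊢
      omega
    · rintro ⟨a, b⟩ h
      simp only [mem_filter, mem_allPairs] at h
      simp only [Prod.mk.injEq, and_true]
      omega
    · rintro ⟨a, b⟩ h
      simp only [mem_filter, mem_halfPairs] at h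
      simp only [Prod.mk.injEq, and_true]
      omega
    · rintro ⟨a, b⟩ h
      simp only [mem_filter, mem_allPairs] at h
      obtain ⟨⟨ha, hab, -⟩, hlt⟩ := h
      simp only
      rw [steps_pos ha, show b % a = b - a by
        rw [Nat.mod_eq_sub_mod hab.le, Nat.mod_eq_of_lt (by omega)]]
      congr 1
      refine steps_congr ?_
      conv_rhs => rw [show b = a + (b - a) by omega, Nat.add_sub_cancel_left, Nat.add_mod_right]
  rw [hh, hrefl, sum_add_distrib] at hsplit
  have hq := card_coprimeQuads N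
  have hsum : ∑ z ∈ halfPairs N, steps z.1 z.2 =
      (coprimeQuads N).card + (halfPairs N).card := by
    rw [hq, card_eq_sum_ones, ← sum_add_distrib]
    refine sum_congr rfl fun z hz => ?_
    have := one_le_steps ((mem_halfPairs (a := z.1) (b := z.2)).1 hz).1 z.2
    omega
  have hlt : ∑ z ∈ (halfPairs N).filter (fun z => 2 * z.1 < z.2), steps z.1 z.2 ≤
      ∑ z ∈ halfPairs N, steps z.1 z.2 :=
    sum_le_sum_of_subset (filter_subset _ _)
  have hge : ∑ z ∈ halfPairs N, steps z.1 z.2 ≤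
      (∑ z ∈ (halfPairs N).filter (fun z => 2 * z.1 < z.2), steps z.1 z.2) +
        (halfPairs N).card := by
    rw [← sum_filter_add_sum_filter_not (halfPairs N) (fun z => 2 * z.1 < z.2)]
    refine Nat.add_le_add_left ((sum_le_card_nsmul _ _ 1 fun z hz => ?_).trans ?_) _
    · obtain ⟨h1, h2⟩ := mem_filter.1 hz
      obtain ⟨ha, hab, -⟩ := (mem_halfPairs (a := z.1) (b := z.2)).1 h1
      rw [steps_pos ha, show z.2 = 2 * z.1 by omega, Nat.mul_mod_left, steps_zero]
    · rw [smul_eq_mul, mul_one]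
      exact card_filter_le _ _
  have hone : (∑ z ∈ (halfPairs N).filter (fun z => 2 * z.1 < z.2), 1) ≤ (halfPairs N).card := by
    rw [← card_eq_sum_ones]
    exact card_filter_le _ _
  have hcard : (halfPairs N).card ≤ (N + 1) ^ 2 :=
    (card_le_card fun z hz => by
      rw [← hh] at hz
      exact (mem_filter.1 hz).1).trans (card_allPairs_le N)
  constructor <;> omega

end FA.EuclideanSteps
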